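import Mathlib.Analysis.Complex.AbsMax
import Mathlib.Analysis.Complex.CauchyIntegral
import Mathlib.Analysis.Complex.RemovableSingularity
import Mathlib.Algebra.Group.ForwardDiff
import Mathlib.Analysis.SpecificLimits.Normed
import Mathlib.Data.Nat.Choose.Central
import Mathlib.RingTheory.Polynomial.Pochhammer
import Mathlib.Algebra.Polynomial.Taylor
import Mathlib.Analysis.SpecialFunctions.Complex.Log
import Mathlib.Analysis.Calculus.Deriv.Polynomial
import Mathlib.Tactic

/-!
# Pólya's theorem on integer-valued entire functions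

An entire function of exponential type less than `log 2` taking integer values at the natural
numbers is a polynomial (Pólya).
-/

set_option autoImplicit false

noncomputable section

open Finset Filter Topology Complex Metric
open scoped fwdDiff

namespace FA.PolyaIntegerValued

/-- `∏ (z - j - k)` over `k ≤ n`. -/
def nodes (n j : ℕ) (z : ℂ) : ℂ := ∏ k ∈ range (n + 1), (z - (j + k : ℕ))

theorem nodes_ne_zero {n j : ℕ} {z : ℂ} {R : ℝ} (hz : z ∈ sphere (0 : ℂ) R)
    (hR : ((j + n : ℕ) : ℝ) < R) : nodes n j z ≠ 0 := by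
  refine prod_ne_zero_iff.2 fun k hk h => ?_
  rw [sub_eq_zero] at h
  rw [mem_sphere_zero_iff_norm, h, Complex.norm_natCast] at hz
  have : (j + k : ℕ) ≤ j + n := by simp at hk; omega
  have h' : ((j + k : ℕ) : ℝ) ≤ ((j + n : ℕ) : ℝ) := Nat.cast_le.2 this
  linarith

/-- The forward differences as contour integrals. -/
theorem fwdDiff_eq_integral {f : ℂ → ℂ} (hf : Differentiable ℂ f) {R : ℝ} :
    ∀ n j : ℕ, ((j + n : ℕ) : ℝ) < R → Δ_[1]^[n] (fun m : ℕ => f m) j =
      n.factorial * ((2 * Real.pi * I : ℂ)⁻¹ • ∮ z in C(0, R), f z / nodes n j z) := by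
  intro n
  induction n with
  | zero =>
    intro j hj
    simp only [Nat.add_zero] at hj
    have h := two_pi_I_inv_smul_circleIntegral_sub_inv_smul_of_differentiable_on_off_countable
      (f := f) (w := (j : ℂ)) (c := 0) (R := R) Set.countable_empty
      (by simpa [Complex.norm_natCast] using hj) hf.continuous.continuousOn fun x _ => hf x
    simp only [Function.iterate_zero_apply, Nat.factorial_zero, Nat.cast_one, one_mul, nodes,
      zero_add, prod_range_one, Nat.add_zero]
    rw [← h]
    simp [div_eq_inv_mul]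
  | succ n ih =>
    intro j hj
    have hR : 0 ≤ R := (Nat.cast_nonneg _).trans hj.le
    have hj0 : ((j + n : ℕ) : ℝ) < R := lt_of_le_of_lt (Nat.cast_le.2 (by omega)) hj
    have hj1 : ((j + 1 + n : ℕ) : ℝ) < R := by rwa [show j + 1 + n = j + (n + 1) by omega]
    have hci : ∀ i, ((i + n : ℕ) : ℝ) < R →
        CircleIntegrable (fun z => f z / nodes n i z) 0 R := fun i hi =>
      ContinuousOn.circleIntegrable hR (hf.continuous.continuousOn.div
        (continuous_finsetProd _ fun k _ => continuous_id.sub continuous_const).continuousOn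
        fun z hz => nodes_ne_zero hz hi)
    rw [Function.iterate_succ_apply', fwdDiff, ih (j + 1) hj1, ih j hj0, ← mul_sub, ← smul_sub,
      ← circleIntegral.integral_sub (hci _ hj1) (hci _ hj0),
      circleIntegral.integral_congr hR
        (g := fun z => ((n + 1 : ℕ) : ℂ) * (f z / nodes (n + 1) j z))]
    · rw [circleIntegral.integral_const_mul, Nat.factorial_succ, Nat.cast_mul, smul_eq_mul,
        smul_eq_mul]
      ring
    · intro z hz
      have h1 : nodes n (j + 1) z * (z - j) = nodes (n + 1) j z := by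
        simp only [nodes]
        rw [prod_range_succ' (n := n + 1), Nat.add_zero]
        congr 1
        exact prod_congr rfl fun k _ => by rw [show j + 1 + k = j + (k + 1) by omega]
      have h2 : nodes n j z * (z - (j + (n + 1) : ℕ)) = nodes (n + 1) j z := by
        simp only [nodes]
        rw [prod_range_succ (n := n + 1)]
      have e := nodes_ne_zero hz hj
      have e1 := nodes_ne_zero hz hj1
      have e2 := nodes_ne_zero hz hj0
      simp only
      field_simp
      push_cast at h2 ⊢
      linear_combination (f z * nodes n j z) * h1 * (-1) + (f z * nodes n (j + 1) z) * h2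

theorem norm_nodes_ge {n : ℕ} (hn : 0 < n) {z : ℂ} (hz : z ∈ sphere (0 : ℂ) (2 * n : ℕ)) :
    ((2 * n).descFactorial (n + 1) : ℝ) ≤ ‖nodes n 0 z‖ := by
  rw [nodes, norm_prod, Nat.descFactorial_eq_prod_range, Nat.cast_prod]
  refine Finset.prod_le_prod (fun k _ => Nat.cast_nonneg _) fun k hk => ?_
  simp only [Finset.mem_range] at hk
  rw [mem_sphere_zero_iff_norm] at hz
  have h := norm_sub_norm_le z ((0 + k : ℕ) : ℂ)
  rw [hz, Complex.norm_natCast, zero_add] at h
  rw [Nat.cast_sub (by omega), zero_add]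
  exact h

theorem inv_descFactorial_le {n : ℕ} (hn : 0 < n) :
    (n.factorial : ℝ) / (2 * n).descFactorial (n + 1) ≤ 2 / 4 ^ n := by
  have hd : 0 < (2 * n).descFactorial (n + 1) := Nat.descFactorial_pos.2 (by omega)
  rw [div_le_div_iff₀ (by exact_mod_cast hd) (by positivity)]
  have h1 := Nat.factorial_mul_descFactorial (show n + 1 ≤ 2 * n by omega)
  rw [show 2 * n - (n + 1) = n - 1 by omega] at h1
  have h2 := Nat.four_pow_le_two_mul_self_mul_centralBinom n hn
  have h3 : n.centralBinom * n.factorial * n.factorial = (2 * n).factorial := by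
    have := Nat.choose_mul_factorial_mul_factorial (show n ≤ 2 * n by omega)
    rwa [show 2 * n - n = n by omega, ← Nat.centralBinom_eq_two_mul_choose] at this
  have h4 : n * (n - 1).factorial = n.factorial := Nat.mul_factorial_pred (by omega)
  have key : n.factorial * 4 ^ n ≤ 2 * (2 * n).descFactorial (n + 1) := by
    refine Nat.le_of_mul_le_mul_left ?_ (Nat.factorial_pos (n - 1))
    calc (n - 1).factorial * (n.factorial * 4 ^ n)
        ≤ (n - 1).factorial * (n.factorial * (2 * n * n.centralBinom)) := by gcongr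
      _ = 2 * (n.centralBinom * (n * (n - 1).factorial) * n.factorial) := by ring
      _ = 2 * ((n - 1).factorial * (2 * n).descFactorial (n + 1)) := by rw [h4, h3, h1]
      _ = (n - 1).factorial * (2 * (2 * n).descFactorial (n + 1)) := by ring
  exact_mod_cast key

variable {f : ℂ → ℂ} {C a : ℝ}

theorem ratio_lt_one (ha : a < Real.log 2) : Real.exp (2 * a) / 4 < 1 := by
  rw [div_lt_one (by norm_num), show (4 : ℝ) = Real.exp (2 * Real.log 2) by
    rw [two_mul, Real.exp_add, Real.exp_log two_pos]; norm_num, Real.exp_lt_exp]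
  linarith

/-- The bound for the forward differences at zero. -/
theorem norm_fwdDiff_le (hf : Differentiable ℂ f) (hC : ∀ z, ‖f z‖ ≤ C * Real.exp (a * ‖z‖))
    {n : ℕ} (hn : 0 < n) :
    ‖Δ_[1]^[n] (fun m : ℕ => f m) 0‖ ≤ 4 * C * (n * (Real.exp (2 * a) / 4) ^ n) := by
  have hC0 : 0 ≤ C := by simpa using (norm_nonneg _).trans (hC 0)
  have hd : 0 < ((2 * n).descFactorial (n + 1) : ℝ) := by
    exact_mod_cast Nat.descFactorial_pos.2 (by omega : n + 1 ≤ 2 * n)
  rw [fwdDiff_eq_integral hf (R := ((2 * n : ℕ) : ℝ)) n 0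
      (by exact_mod_cast (by omega : 0 + n < 2 * n)),
    norm_mul, Complex.norm_natCast]
  have h := circleIntegral.norm_two_pi_i_inv_smul_integral_le_of_norm_le_const
    (f := fun z => f z / nodes n 0 z) (c := 0) (R := ((2 * n : ℕ) : ℝ))
    (C := C * Real.exp (a * (2 * n : ℕ)) / (2 * n).descFactorial (n + 1)) (Nat.cast_nonneg _)
    fun z hz => by
      rw [norm_div]
      have h1 := hC z
      rw [mem_sphere_zero_iff_norm.1 hz] at h1
      exact div_le_div₀ (by positivity) h1 hd (norm_nodes_ge hn hz)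
  refine (mul_le_mul_of_nonneg_left h (Nat.cast_nonneg _)).trans ?_
  calc (n.factorial : ℝ) * (((2 * n : ℕ) : ℝ) * (C * Real.exp (a * (2 * n : ℕ)) /
        (2 * n).descFactorial (n + 1)))
      = (2 * n * C * Real.exp (2 * a) ^ n) * (n.factorial / (2 * n).descFactorial (n + 1)) := by
        rw [← Real.exp_nat_mul]
        push_cast
        rw [show a * (2 * (n : ℝ)) = n * (2 * a) by ring]
        field_simp
    _ ≤ (2 * n * C * Real.exp (2 * a) ^ n) * (2 / 4 ^ n) :=
        mul_le_mul_of_nonneg_left (inv_descFactorial_le hn) (by positivity)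
    _ = 4 * C * (n * (Real.exp (2 * a) / 4) ^ n) := by
        rw [div_pow]
        ring

/-- An entire function vanishing at `0, …, n` is divisible by the nodes. -/
theorem exists_quotient (hf : Differentiable ℂ f) (hzero : ∀ k : ℕ, f k = 0) :
    ∀ n, ∃ h : ℂ → ℂ, Differentiable ℂ h ∧ ∀ z, f z = nodes n 0 z * h z := by
  have step : ∀ (c : ℂ) (g : ℂ → ℂ), Differentiable ℂ g → g c = 0 →
      Differentiable ℂ (dslope g c) ∧ ∀ z, g z = (z - c) * dslope g c z := fun c g hg hgc =>
    ⟨differentiableOn_univ.1 ((differentiableOn_dslope Filter.univ_mem).2 hg.differentiableOn),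
      fun z => by rw [← smul_eq_mul, sub_smul_dslope, hgc, sub_zero]⟩
  intro n
  induction n with
  | zero =>
    obtain ⟨h1, h2⟩ := step ((0 : ℕ) : ℂ) f hf (hzero 0)
    exact ⟨_, h1, fun z => by simpa [nodes] using h2 z⟩
  | succ n ih =>
    obtain ⟨h, hh, heq⟩ := ih
    have h0 : h ((n + 1 : ℕ) : ℂ) = 0 := by
      refine (mul_eq_zero.1 ((heq _).symm.trans (hzero (n + 1)))).resolve_left ?_
      refine prod_ne_zero_iff.2 fun k hk e => ?_
      rw [sub_eq_zero, Nat.cast_inj] at e
      simp at hk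
      omega
    obtain ⟨h1, h2⟩ := step _ h hh h0
    refine ⟨_, h1, fun z => ?_⟩
    rw [heq, h2 z]
    simp only [nodes]
    rw [prod_range_succ (n := n + 1), zero_add, mul_assoc]

/-- **Uniqueness**: exponential type less than `log 2` and zeros at the naturals force zero. -/
theorem eq_zero_of_zeros (hf : Differentiable ℂ f) (hC : ∀ z, ‖f z‖ ≤ C * Real.exp (a * ‖z‖))
    (ha : a < Real.log 2) (hzero : ∀ k : ℕ, f k = 0) (w : ℂ) : f w = 0 := by
  obtain ⟨m, hm⟩ : ∃ m, m = ⌈‖w‖⌉₊ + 1 := ⟨_, rfl⟩
  have hwm : ‖w‖ ≤ m := (Nat.le_ceil _).trans (by rw [hm]; push_cast; linarith)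
  have hC0 : 0 ≤ C := by simpa using (norm_nonneg _).trans (hC 0)
  set q := Real.exp (2 * a) / 4 with hq
  have hq0 : 0 < q := div_pos (Real.exp_pos _) (by norm_num)
  have hlim : Tendsto (fun n : ℕ => 2 * C / q ^ m * (((n + m : ℕ) : ℝ) ^ m * q ^ (n + m)))
      atTop (𝓝 0) := by
    simpa using (((tendsto_pow_const_mul_const_pow_of_lt_one m hq0.le (ratio_lt_one ha)).comp
      (tendsto_add_atTop_nat m))).const_mul (2 * C / q ^ m)
  refine norm_le_zero_iff.1 (ge_of_tendsto hlim (eventually_atTop.2 ⟨m, fun n hn => ?_⟩))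
  have hn0 : 0 < n := by omega
  obtain ⟨h, hh, heq⟩ := exists_quotient hf hzero n
  have hd : 0 < ((2 * n).descFactorial (n + 1) : ℝ) := by
    exact_mod_cast Nat.descFactorial_pos.2 (by omega : n + 1 ≤ 2 * n)
  have hbound : ∀ z ∈ sphere (0 : ℂ) ((2 * n : ℕ) : ℝ),
      ‖h z‖ ≤ C * Real.exp (a * (2 * n : ℕ)) / (2 * n).descFactorial (n + 1) := by
    intro z hz
    rw [le_div_iff₀ hd]
    have h1 := hC z
    rw [mem_sphere_zero_iff_norm.1 hz, heq, norm_mul] at h1
    nlinarith [norm_nodes_ge hn0 hz, norm_nonneg (h z)]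
  have hmem : w ∈ closure (ball (0 : ℂ) ((2 * n : ℕ) : ℝ)) :=
    subset_closure (mem_ball_zero_iff.2 (hwm.trans_lt (by exact_mod_cast (by omega : m < 2 * n))))
  have hw := Complex.norm_le_of_forall_mem_frontier_norm_le isBounded_ball hh.diffContOnCl
    (fun z hz => hbound z (frontier_ball_subset_sphere hz)) hmem
  have hnodes : ‖nodes n 0 w‖ ≤ ((n + m : ℕ) : ℝ) ^ m * n.factorial := by
    have hprod : ∀ m' : ℕ, ∏ k ∈ range (n + 1), (m' + 1 + k) ≤ (m' + 1 + n).factorial :=
        fun m' => by
      rw [← Nat.ascFactorial_eq_prod_range]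
      refine (Nat.le_mul_of_pos_left _ (Nat.factorial_pos m')).trans ?_
      rw [Nat.factorial_mul_ascFactorial, show m' + (n + 1) = m' + 1 + n by ring]
    have hfac : ∀ i : ℕ, i ≤ m → (n + i).factorial ≤ (n + m) ^ i * n.factorial := fun i => by
      induction i with
      | zero => simp
      | succ i ih =>
        intro hi
        rw [show n + (i + 1) = n + i + 1 by ring, Nat.factorial_succ, pow_succ', mul_assoc]
        exact Nat.mul_le_mul (by omega) (ih (by omega))
    calc ‖nodes n 0 w‖ ≤ ∏ k ∈ range (n + 1), ((m + k : ℕ) : ℝ) := by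
          rw [nodes, norm_prod]
          refine Finset.prod_le_prod (fun k _ => norm_nonneg _) fun k _ => ?_
          refine (norm_sub_le _ _).trans ?_
          rw [Complex.norm_natCast, zero_add, Nat.cast_add]
          linarith
      _ ≤ ((n + m : ℕ) : ℝ) ^ m * n.factorial := by
          rw [← Nat.cast_prod]
          subst hm
          exact_mod_cast (hprod ⌈‖w‖⌉₊).trans (by rw [add_comm]; exact hfac _ le_rfl)
  calc ‖f w‖ = ‖nodes n 0 w‖ * ‖h w‖ := by rw [heq, norm_mul]
    _ ≤ ((n + m : ℕ) : ℝ) ^ m * n.factorial *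
        (C * Real.exp (a * (2 * n : ℕ)) / (2 * n).descFactorial (n + 1)) :=
        mul_le_mul hnodes hw (norm_nonneg _) (by positivity)
    _ = ((n + m : ℕ) : ℝ) ^ m * C * Real.exp (2 * a) ^ n *
        (n.factorial / (2 * n).descFactorial (n + 1)) := by
        rw [← Real.exp_nat_mul]
        push_cast
        rw [show a * (2 * (n : ℝ)) = n * (2 * a) by ring]
        field_simp
    _ ≤ ((n + m : ℕ) : ℝ) ^ m * C * Real.exp (2 * a) ^ n * (2 / 4 ^ n) :=
        mul_le_mul_of_nonneg_left (inv_descFactorial_le hn0) (by positivity)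
    _ = 2 * C / q ^ m * (((n + m : ℕ) : ℝ) ^ m * q ^ (n + m)) := by
        rw [pow_add q, hq, div_pow, div_pow]
        field_simp

/-- **Pólya's theorem.** -/
theorem isPolynomial (hf : Differentiable ℂ f) (hC : ∀ z, ‖f z‖ ≤ C * Real.exp (a * ‖z‖))
    (ha : a < Real.log 2) (hint : ∀ k : ℕ, ∃ z : ℤ, f k = z) :
    ∃ P : Polynomial ℂ, ∀ z, f z = P.eval z := by
  set φ : ℕ → ℂ := fun m => f m with hφ
  have hlim : Tendsto (fun n : ℕ => 4 * C * (n * (Real.exp (2 * a) / 4) ^ n)) atTop (𝓝 0) := by
    simpa using (tendsto_self_mul_const_pow_of_lt_one (by positivity) (ratio_lt_one ha)).const_mul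
      (4 * C)
  obtain ⟨N, hN⟩ := eventually_atTop.1 (hlim.eventually_lt_const one_pos)
  have hzero : ∀ n, N + 1 ≤ n → Δ_[1]^[n] φ 0 = 0 := by
    intro n hn
    choose g hg using hint
    obtain ⟨z, hz⟩ : ∃ z : ℤ, Δ_[1]^[n] φ 0 = z := by
      refine ⟨Δ_[1]^[n] g 0, ?_⟩
      rw [fwdDiff_iter_eq_sum_shift, fwdDiff_iter_eq_sum_shift, Int.cast_sum]
      refine Finset.sum_congr rfl fun k _ => ?_
      rw [zsmul_eq_mul, smul_eq_mul]
      simp [hφ, hg]
    have h := (norm_fwdDiff_le hf hC (n := n) (by omega)).trans_lt (hN n (by omega))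
    rw [← hφ, hz, Complex.norm_intCast] at h
    have : |z| < 1 := by exact_mod_cast h
    rw [hz, Int.abs_lt_one_iff.1 this, Int.cast_zero]
  set P : Polynomial ℂ := ∑ k ∈ range (N + 1),
    Polynomial.C (Δ_[1]^[k] φ 0 / k.factorial) * descPochhammer ℂ k with hP
  have hPn : ∀ n : ℕ, f n = P.eval (n : ℂ) := by
    intro n
    have h := shift_eq_sum_fwdDiff_iter (h := 1) φ n 0
    simp only [zero_add, smul_eq_mul, mul_one] at h
    rw [show f n = φ n from rfl, h, hP, Polynomial.eval_finsetSum]
    simp only [Polynomial.eval_mul, Polynomial.eval_C, descPochhammer_eval_eq_descFactorial,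
      nsmul_eq_mul, Nat.descFactorial_eq_factorial_mul_choose, Nat.cast_mul]
    refine (sum_subset (range_subset_range.2 (Nat.le_max_right (N + 1) (n + 1))) ?_).trans
      ((Finset.sum_congr rfl fun k _ => ?_).trans
        (sum_subset (range_subset_range.2 (Nat.le_max_left (N + 1) (n + 1))) ?_).symm)
    · intro k _ hk
      rw [Nat.choose_eq_zero_of_lt (by simpa using hk), Nat.cast_zero, zero_mul]
    · field_simp [Nat.cast_ne_zero.2 k.factorial_pos.ne']
    · intro k _ hk
      rw [hzero k (by simpa using hk)]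
      simp
  refine ⟨P, fun w => sub_eq_zero.1 ?_⟩
  set b := (max a 0 + Real.log 2) / 2 with hb
  have hmax : max a 0 < Real.log 2 := max_lt ha (Real.log_pos one_lt_two)
  have hb0 : 0 < b := by have := le_max_right a 0; rw [hb]; linarith
  refine eq_zero_of_zeros (f := fun z => f z - P.eval z) (hf.sub P.differentiable)
    (a := b) (C := C + ∑ i ∈ P.support, ‖P.coeff i‖ * i.factorial / b ^ i) (fun z => ?_)
    (by rw [hb]; linarith) (fun k => sub_eq_zero.2 (hPn k)) w
  have hC0 : 0 ≤ C := by simpa using (norm_nonneg _).trans (hC 0)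
  refine (norm_sub_le _ _).trans ?_
  rw [add_mul]
  refine add_le_add ((hC z).trans ?_) ?_
  · gcongr
    rw [hb]
    linarith [le_max_left a 0]
  · rw [Polynomial.eval_eq_sum, Polynomial.sum_def, sum_mul]
    refine (norm_sum_le _ _).trans (sum_le_sum fun i _ => ?_)
    rw [norm_mul, norm_pow, show ‖P.coeff i‖ * i.factorial / b ^ i * Real.exp (b * ‖z‖) =
      ‖P.coeff i‖ * (i.factorial / b ^ i * Real.exp (b * ‖z‖)) by ring]
    gcongr
    have h := Real.pow_div_factorial_le_exp (b * ‖z‖) (by positivity) i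
    rw [div_le_iff₀ (by positivity), mul_pow] at h
    rw [div_mul_eq_mul_div, le_div_iff₀ (by positivity)]
    linarith

/-- `2 ^ z` is not a polynomial. -/
theorem two_cpow_not_polynomial : ¬∃ P : Polynomial ℂ, ∀ z : ℂ, (2 : ℂ) ^ z = P.eval z := by
  rintro ⟨P, hP⟩
  have h : Polynomial.taylor 1 P = 2 • P := Polynomial.funext fun z => by
    rw [Polynomial.taylor_eval, Polynomial.eval_smul, ← hP, ← hP, cpow_add _ _ two_ne_zero,
      cpow_one, nsmul_eq_mul, Nat.cast_ofNat, mul_comm]
  have hd : (Polynomial.taylor 1 P).coeff P.natDegree = 2 * P.coeff P.natDegree := by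
    rw [h, Polynomial.coeff_smul, nsmul_eq_mul, Nat.cast_ofNat]
  rw [show (Polynomial.taylor 1 P).coeff P.natDegree = P.leadingCoeff from by
    rw [← Polynomial.leadingCoeff_taylor (r := (1 : ℂ)) (f := P),
      Polynomial.leadingCoeff, Polynomial.natDegree_taylor], Polynomial.coeff_natDegree] at hd
  have h0 : P.leadingCoeff = 0 := by linear_combination -hd
  have := hP 0
  rw [Polynomial.leadingCoeff_eq_zero.1 h0, cpow_zero, Polynomial.eval_zero] at this
  exact one_ne_zero this

theorem norm_two_cpow_le (z : ℂ) : ‖(2 : ℂ) ^ z‖ ≤ 1 * Real.exp (Real.log 2 * ‖z‖) := by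
  rw [one_mul, show (2 : ℂ) = ((2 : ℝ) : ℂ) by norm_num,
    Complex.norm_cpow_eq_rpow_re_of_pos two_pos, Real.rpow_def_of_pos two_pos, Real.exp_le_exp]
  exact mul_le_mul_of_nonneg_left (Complex.re_le_norm z) (Real.log_nonneg one_le_two)

end FA.PolyaIntegerValued

end
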